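import Mathlib

/-!
# S16 / WP L-lat : an explicit even positive definite quaternary lattice of level `p`, det `p²`

For integers `a r p t` with `(2a - 1) t = r² + p` put

  A = [[2,1,0,0],[1,a,0,r],[0,0,pa,p],[0,r,p,2t]],
  B = [[at, p-2at, -r, ar],[p-2at, 4at-2p, 2r, -2ar],[-r, 2r, 2, 1-2a],[ar, -2ar, 1-2a, 2a²-a]].

Then `A * B = p`, `det A = p²`, and for `a` even both have even diagonal; for `p, a > 0` the matrix
`A` is positive definite.  For every prime `p` such `a, r, t` exist (with `a` even, `a > 0`).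
-/

set_option autoImplicit false

namespace Fermat.Agent.S16.H696

open Matrix

/-- The Gram matrix `A`. -/
def latA (a r p t : ℤ) : Matrix (Fin 4) (Fin 4) ℤ :=
  !![2, 1, 0, 0; 1, a, 0, r; 0, 0, p * a, p; 0, r, p, 2 * t]

/-- The matrix `B = p A⁻¹`. -/
def latB (a r p t : ℤ) : Matrix (Fin 4) (Fin 4) ℤ :=
  !![a * t, p - 2 * a * t, -r, a * r;
     p - 2 * a * t, 4 * a * t - 2 * p, 2 * r, -(2 * a * r);
     -r, 2 * r, 2, 1 - 2 * a;
     a * r, -(2 * a * r), 1 - 2 * a, 2 * a ^ 2 - a]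

theorem latA_isSymm (a r p t : ℤ) : (latA a r p t).IsSymm := by
  ext i j
  fin_cases i <;> fin_cases j <;> simp [latA]

theorem latB_isSymm (a r p t : ℤ) : (latB a r p t).IsSymm := by
  ext i j
  fin_cases i <;> fin_cases j <;> simp [latB]

theorem latA_mul_latB {a r p t : ℤ} (h : (2 * a - 1) * t = r ^ 2 + p) :
    latA a r p t * latB a r p t = p • (1 : Matrix (Fin 4) (Fin 4) ℤ) := by
  have hp : p = (2 * a - 1) * t - r ^ 2 := by linarith
  subst hp
  ext i j
  fin_cases i <;> fin_cases j <;>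
    simp [latA, latB, Matrix.mul_apply, Fin.sum_univ_four] <;> ring

theorem latB_mul_latA {a r p t : ℤ} (h : (2 * a - 1) * t = r ^ 2 + p) :
    latB a r p t * latA a r p t = p • (1 : Matrix (Fin 4) (Fin 4) ℤ) := by
  have hp : p = (2 * a - 1) * t - r ^ 2 := by linarith
  subst hp
  ext i j
  fin_cases i <;> fin_cases j <;>
    simp [latA, latB, Matrix.mul_apply, Fin.sum_univ_four] <;> ring

theorem det_latA {a r p t : ℤ} (h : (2 * a - 1) * t = r ^ 2 + p) :
    (latA a r p t).det = p ^ 2 := by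
  have hp : p = (2 * a - 1) * t - r ^ 2 := by linarith
  subst hp
  simp [latA, Matrix.det_succ_row_zero, Fin.sum_univ_succ, Fin.succAbove]
  ring

theorem latA_diag_even {a : ℤ} (ha : Even a) (r p t : ℤ) (i : Fin 4) :
    Even (latA a r p t i i) := by
  fin_cases i
  · exact ⟨1, by simp [latA]⟩
  · simpa [latA] using ha
  · simpa [latA] using ha.mul_left p
  · exact ⟨t, by simp [latA]; ring⟩

theorem latB_diag_even {a : ℤ} (ha : Even a) (r p t : ℤ) (i : Fin 4) :
    Even (latB a r p t i i) := by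
  fin_cases i
  · simpa [latB] using ha.mul_right t
  · exact ⟨2 * a * t - p, by simp [latB]; ring⟩
  · exact ⟨1, by simp [latB]⟩
  · have : 2 * a ^ 2 - a = a * (2 * a - 1) := by ring
    simpa [latB, this] using ha.mul_right (2 * a - 1)

/-- The quadratic form `xᵀ A x` written out. -/
theorem latA_quadForm (a r p t : ℤ) (x : Fin 4 → ℝ) :
    x ⬝ᵥ ((latA a r p t).map (Int.cast : ℤ → ℝ) *ᵥ x) =
      2 * x 0 ^ 2 + 2 * x 0 * x 1 + a * x 1 ^ 2 + 2 * r * x 1 * x 3 + p * a * x 2 ^ 2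
        + 2 * p * x 2 * x 3 + 2 * t * x 3 ^ 2 := by
  simp [latA, dotProduct, Matrix.mulVec, Fin.sum_univ_four]
  ring

/-- Completing the squares: `2a(2a-1) · xᵀAx` is a positive combination of four squares. -/
theorem latA_quadForm_sq {a r p t : ℤ} (h : (2 * a - 1) * t = r ^ 2 + p) (x : Fin 4 → ℝ) :
    2 * (a : ℝ) * (2 * a - 1) * (x ⬝ᵥ ((latA a r p t).map (Int.cast : ℤ → ℝ) *ᵥ x)) =
      a * (2 * a - 1) * (2 * x 0 + x 1) ^ 2 + a * ((2 * a - 1) * x 1 + 2 * r * x 3) ^ 2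
        + 2 * p * (2 * a - 1) * (a * x 2 + x 3) ^ 2 + 2 * p * x 3 ^ 2 := by
  have hR : ((2 : ℝ) * a - 1) * t = r ^ 2 + p := by exact_mod_cast h
  have hp : (p : ℝ) = (2 * a - 1) * t - r ^ 2 := by linarith
  rw [latA_quadForm, hp]
  ring

theorem latA_posDef {a r p t : ℤ} (ha : 0 < a) (hp : 0 < p)
    (h : (2 * a - 1) * t = r ^ 2 + p) :
    ((latA a r p t).map (Int.cast : ℤ → ℝ)).PosDef := by
  rw [Matrix.posDef_iff_dotProduct_mulVec]
  refine ⟨?_, ?_⟩
  · rw [Matrix.IsHermitian, Matrix.conjTranspose_eq_transpose_of_trivial]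
    have := latA_isSymm a r p t
    rw [Matrix.IsSymm] at this
    rw [← Matrix.transpose_map, this]
  · intro x hx
    rw [star_trivial]
    have haR : (0 : ℝ) < a := by exact_mod_cast ha
    have hpR : (0 : ℝ) < p := by exact_mod_cast hp
    have hq : (0 : ℝ) < 2 * a - 1 := by
      have : (1 : ℤ) ≤ a := ha
      have : (1 : ℝ) ≤ a := by exact_mod_cast this
      linarith
    have key := latA_quadForm_sq h x
    set Q := x ⬝ᵥ ((latA a r p t).map (Int.cast : ℤ → ℝ) *ᵥ x) with hQ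
    by_contra hneg
    rw [not_lt] at hneg
    have h1 : 0 ≤ (a : ℝ) * (2 * a - 1) * (2 * x 0 + x 1) ^ 2 := by positivity
    have h2 : 0 ≤ (a : ℝ) * ((2 * a - 1) * x 1 + 2 * r * x 3) ^ 2 := by positivity
    have h3 : 0 ≤ 2 * (p : ℝ) * (2 * a - 1) * (a * x 2 + x 3) ^ 2 := by positivity
    have h4 : 0 ≤ 2 * (p : ℝ) * x 3 ^ 2 := by positivity
    have hle : 2 * (a : ℝ) * (2 * a - 1) * Q ≤ 0 :=
      mul_nonpos_of_nonneg_of_nonpos (by positivity) hneg
    have e4 : 2 * (p : ℝ) * x 3 ^ 2 = 0 := by linarith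
    have e3 : 2 * (p : ℝ) * (2 * a - 1) * (a * x 2 + x 3) ^ 2 = 0 := by linarith
    have e2 : (a : ℝ) * ((2 * a - 1) * x 1 + 2 * r * x 3) ^ 2 = 0 := by linarith
    have e1 : (a : ℝ) * (2 * a - 1) * (2 * x 0 + x 1) ^ 2 = 0 := by linarith
    have x3 : x 3 = 0 := by
      have : x 3 ^ 2 = 0 := by
        rcases mul_eq_zero.mp e4 with h' | h'
        · exfalso; linarith
        · exact h'
      exact pow_eq_zero_iff (two_ne_zero) |>.mp this
    have x2 : x 2 = 0 := by
      have : (a * x 2 + x 3) ^ 2 = 0 := by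
        rcases mul_eq_zero.mp e3 with h' | h'
        · exfalso
          rcases mul_eq_zero.mp h' with h'' | h''
          · linarith
          · linarith
        · exact h'
      have : (a : ℝ) * x 2 + x 3 = 0 := pow_eq_zero_iff (two_ne_zero) |>.mp this
      rw [x3, add_zero] at this
      rcases mul_eq_zero.mp this with h' | h'
      · exfalso; linarith
      · exact h'
    have x1 : x 1 = 0 := by
      have : ((2 * (a : ℝ) - 1) * x 1 + 2 * r * x 3) ^ 2 = 0 := by
        rcases mul_eq_zero.mp e2 with h' | h'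
        · exfalso; linarith
        · exact h'
      have : (2 * (a : ℝ) - 1) * x 1 + 2 * r * x 3 = 0 := pow_eq_zero_iff (two_ne_zero) |>.mp this
      rw [x3, mul_zero, add_zero] at this
      rcases mul_eq_zero.mp this with h' | h'
      · exfalso; linarith
      · exact h'
    have x0 : x 0 = 0 := by
      have : (2 * x 0 + x 1) ^ 2 = 0 := by
        rcases mul_eq_zero.mp e1 with h' | h'
        · exfalso
          rcases mul_eq_zero.mp h' with h'' | h''
          · linarith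
          · linarith
        · exact h'
      have : 2 * x 0 + x 1 = 0 := pow_eq_zero_iff (two_ne_zero) |>.mp this
      rw [x1, add_zero] at this
      linarith
    apply hx
    funext i
    fin_cases i <;> simp [x0, x1, x2, x3]

/-- The integral quadratic form `xᵀ A x` written out. -/
theorem latA_quadForm_int (a r p t : ℤ) (x : Fin 4 → ℤ) :
    x ⬝ᵥ (latA a r p t *ᵥ x) =
      2 * x 0 ^ 2 + 2 * x 0 * x 1 + a * x 1 ^ 2 + 2 * r * x 1 * x 3 + p * a * x 2 ^ 2
        + 2 * p * x 2 * x 3 + 2 * t * x 3 ^ 2 := by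
  simp [latA, dotProduct, Matrix.mulVec, Fin.sum_univ_four]
  ring

/-- `xᵀ A x` is even on `ℤ⁴` (so `Q(x) = xᵀAx/2` is integral) when `a` is even. -/
theorem latA_quadForm_even {a : ℤ} (ha : Even a) (r p t : ℤ) (x : Fin 4 → ℤ) :
    Even (x ⬝ᵥ (latA a r p t *ᵥ x)) := by
  obtain ⟨b, rfl⟩ := ha
  rw [latA_quadForm_int]
  exact ⟨x 0 ^ 2 + x 0 * x 1 + b * x 1 ^ 2 + r * x 1 * x 3 + p * b * x 2 ^ 2
    + p * x 2 * x 3 + t * x 3 ^ 2, by ring⟩

/-! ### Existence of the parameters -/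

/-- For a prime `p ≡ 1 mod 4` there are a prime `q ≡ 3 mod 4` and a natural number `r` with
`q ∣ r² + p` (Dirichlet's theorem + quadratic reciprocity). -/
theorem exists_prime_three_mod_four_dvd (p : ℕ) (hp : p.Prime) (hp4 : p % 4 = 1) :
    ∃ q r : ℕ, q.Prime ∧ q % 4 = 3 ∧ q ∣ r ^ 2 + p := by
  have : Fact p.Prime := ⟨hp⟩
  have hp2 : p ≠ 2 := by rintro rfl; norm_num at hp4
  -- a non-residue mod `p`
  obtain ⟨g, hg⟩ : ∃ g : ZMod p, ¬ IsSquare g :=
    FiniteField.exists_nonsquare (by rwa [ZMod.ringChar_zmod_n p])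
  have hg0 : g ≠ 0 := by rintro rfl; exact hg ⟨0, by simp⟩
  -- Chinese remainder theorem
  have hcop : Nat.Coprime 4 p := by
    have : Nat.Coprime 2 p := (Nat.coprime_primes Nat.prime_two hp).mpr (Ne.symm hp2)
    exact Nat.Coprime.pow_left 2 this
  let e := ZMod.chineseRemainder hcop
  have : NeZero (4 * p) := ⟨by have := hp.pos; omega⟩
  let c : ZMod (4 * p) := e.symm (3, g)
  have hc : IsUnit c := by
    have h3 : IsUnit (3 : ZMod 4) := by decide
    have : IsUnit ((3, g) : ZMod 4 × ZMod p) := Prod.isUnit_iff.mpr ⟨h3, hg0.isUnit⟩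
    exact this.map e.symm
  obtain ⟨q, -, hq, hqc⟩ := Nat.forall_exists_prime_gt_and_eq_mod hc 0
  have : Fact q.Prime := ⟨hq⟩
  have heq : e (q : ZMod (4 * p)) = (3, g) := by rw [hqc]; exact e.apply_symm_apply _
  have hq4' : ((q : ZMod 4), (q : ZMod p)) = (3, g) := by
    rw [← heq, map_natCast]; rfl
  have hq4z : (q : ZMod 4) = 3 := congrArg Prod.fst hq4'
  have hqp : (q : ZMod p) = g := congrArg Prod.snd hq4'
  have hq4 : q % 4 = 3 := by
    have := congrArg ZMod.val hq4z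
    rw [ZMod.val_natCast] at this
    exact this.trans (by decide)
  have hq2 : q ≠ 2 := by rintro rfl; norm_num at hq4
  -- `p` is not a square mod `q`
  have hpq : ¬ IsSquare (p : ZMod q) := by
    rw [← ZMod.exists_sq_eq_prime_iff_of_mod_four_eq_one hp4 hq2, hqp]
    exact hg
  have hm1 : ¬ IsSquare (-1 : ZMod q) := by
    rw [ZMod.exists_sq_eq_neg_one_iff]; simp [hq4]
  -- hence `-p` is a square mod `q`
  have h1 : legendreSym q (p : ℤ) = -1 := by
    rw [legendreSym.eq_neg_one_iff]; simpa using hpq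
  have h2 : legendreSym q (-1 : ℤ) = -1 := by
    rw [legendreSym.eq_neg_one_iff]; simpa using hm1
  have h3 : legendreSym q ((-1 : ℤ) * (p : ℤ)) = 1 := by
    rw [legendreSym.mul, h1, h2]; norm_num
  have hne : (((-1 : ℤ) * (p : ℤ) : ℤ) : ZMod q) ≠ 0 := by
    intro h0
    have := (legendreSym.eq_zero_iff q ((-1 : ℤ) * (p : ℤ))).mpr h0
    rw [h3] at this
    exact one_ne_zero this
  obtain ⟨s, hs⟩ := (legendreSym.eq_one_iff q hne).mp h3
  refine ⟨q, s.val, hq, hq4, ?_⟩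
  rw [← ZMod.natCast_eq_zero_iff]
  push_cast
  rw [ZMod.natCast_zmod_val, pow_two, ← hs]
  push_cast
  ring

/-- For every prime `p` there are integers `a, r, t` with `a` even and positive and
`(2a - 1) t = r² + p`. -/
theorem exists_params (p : ℕ) (hp : p.Prime) :
    ∃ a r t : ℤ, Even a ∧ 0 < a ∧ (2 * a - 1) * t = r ^ 2 + (p : ℤ) := by
  rcases hp.eq_two_or_odd with rfl | hodd
  · exact ⟨2, 1, 1, ⟨1, rfl⟩, by norm_num, by norm_num⟩
  · have h8 : p % 8 = 1 ∨ p % 4 = 3 ∨ p % 8 = 5 := by omega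
    rcases h8 with h | h | h
    · obtain ⟨q, r, -, hq4, t, ht⟩ := exists_prime_three_mod_four_dvd p hp (by omega)
      obtain ⟨k, hk⟩ : ∃ k, q = 4 * k + 3 := ⟨q / 4, by omega⟩
      refine ⟨2 * (k : ℤ) + 2, r, t, ⟨(k : ℤ) + 1, by ring⟩, by positivity, ?_⟩
      have : ((r ^ 2 + p : ℕ) : ℤ) = ((q * t : ℕ) : ℤ) := by rw [ht]
      rw [hk] at this
      push_cast at this
      linear_combination -this
    · obtain ⟨k, hk⟩ : ∃ k, p = 4 * k + 3 := ⟨p / 4, by omega⟩
      refine ⟨2 * (k : ℤ) + 2, 0, 1, ⟨(k : ℤ) + 1, by ring⟩, by positivity, ?_⟩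
      rw [hk]; push_cast; ring
    · obtain ⟨k, hk⟩ : ∃ k, p = 8 * k + 5 := ⟨p / 8, by omega⟩
      refine ⟨2 * (k : ℤ) + 2, 1, 2, ⟨(k : ℤ) + 1, by ring⟩, by positivity, ?_⟩
      rw [hk]; push_cast; ring

/-- **WP L-lat.**  For every prime `p` there is an even, positive definite, symmetric integral
`4 × 4` matrix `A` of determinant `p²` such that `p A⁻¹ = B` is integral, symmetric and even. -/
theorem exists_even_lattice (p : ℕ) (hp : p.Prime) :
    ∃ A B : Matrix (Fin 4) (Fin 4) ℤ,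
      A.IsSymm ∧ B.IsSymm ∧ (∀ i, Even (A i i)) ∧ (∀ i, Even (B i i)) ∧
      A * B = (p : ℤ) • (1 : Matrix (Fin 4) (Fin 4) ℤ) ∧
      B * A = (p : ℤ) • (1 : Matrix (Fin 4) (Fin 4) ℤ) ∧
      A.det = (p : ℤ) ^ 2 ∧ (A.map (Int.cast : ℤ → ℝ)).PosDef := by
  obtain ⟨a, r, t, hae, ha, h⟩ := exists_params p hp
  have hp0 : (0 : ℤ) < p := by exact_mod_cast hp.pos
  exact ⟨latA a r p t, latB a r p t, latA_isSymm _ _ _ _, latB_isSymm _ _ _ _,
    latA_diag_even hae _ _ _, latB_diag_even hae _ _ _, latA_mul_latB h, latB_mul_latA h,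
    det_latA h, latA_posDef ha hp0 h⟩

/-- The same with the explicit shape of `A` and `B` exposed. -/
theorem exists_even_lattice_explicit (p : ℕ) (hp : p.Prime) :
    ∃ a r t : ℤ, Even a ∧ 0 < a ∧ (2 * a - 1) * t = r ^ 2 + (p : ℤ) ∧
      latA a r p t * latB a r p t = (p : ℤ) • (1 : Matrix (Fin 4) (Fin 4) ℤ) ∧
      latB a r p t * latA a r p t = (p : ℤ) • (1 : Matrix (Fin 4) (Fin 4) ℤ) ∧
      (latA a r p t).det = (p : ℤ) ^ 2 ∧
      ((latA a r p t).map (Int.cast : ℤ → ℝ)).PosDef := by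
  obtain ⟨a, r, t, hae, ha, h⟩ := exists_params p hp
  have hp0 : (0 : ℤ) < p := by exact_mod_cast hp.pos
  exact ⟨a, r, t, hae, ha, h, latA_mul_latB h, latB_mul_latA h, det_latA h,
    latA_posDef ha hp0 h⟩

end Fermat.Agent.S16.H696
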